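import Mathlib.NumberTheory.ModularForms.EisensteinSeries.IsBoundedAtImInfty
import Mathlib.NumberTheory.ModularForms.EisensteinSeries.QExpansion
import Mathlib.NumberTheory.TsumDivisorsAntidiagonal
import Fermat.Agent.WeightOneGalois.Interface

/-!
# Divisor sums over a residue class and the row action

The double series attached to a class `(u, w)` modulo `M` and its `q`-expansion, used by the
Eisenstein series of weight one and four.
-/

noncomputable section

namespace Fermat.Agent.WeightOneGalois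

open UpperHalfPlane hiding I
open Complex Function
open scoped MatrixGroups

variable {M : ℕ}

theorem rowMul_one (v : ZMod M × ZMod M) : rowMul v 1 = v := by
  simp [rowMul]

theorem rowMul_mul (v : ZMod M × ZMod M) (γ δ : SL(2, ℤ)) :
    rowMul v (γ * δ) = rowMul (rowMul v γ) δ := by
  ext <;> simp [rowMul, Matrix.mul_apply, Fin.sum_univ_two] <;> ring

theorem rowMul_zero (γ : SL(2, ℤ)) : rowMul (0 : ZMod M × ZMod M) γ = 0 := by
  ext <;> simp [rowMul]

theorem rowMul_inj {v w : ZMod M × ZMod M} {γ : SL(2, ℤ)} (h : rowMul v γ = rowMul w γ) :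
    v = w := by
  simpa [← rowMul_mul, rowMul_one] using congrArg (fun x => rowMul x γ⁻¹) h

theorem IsPrim.ne_zero [Fact (1 < M)] {v : ZMod M × ZMod M} (h : IsPrim v) : v ≠ 0 := by
  rintro rfl
  exact not_isUnit_zero (isCoprime_zero_left.mp h)

variable [NeZero M]

omit [NeZero M] in
theorem norm_zetaC : ‖zetaC M‖ = 1 := by
  rw [zetaC, Complex.norm_exp]
  simp [Complex.div_natCast_re]

theorem exp_two_pi_mul_int_div (b : ℤ) (w : ZMod M) (h : (b : ZMod M) = w) :
    exp (2 * Real.pi * I * (b / M)) = zetaC M ^ w.val := by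
  obtain ⟨m, hm⟩ : ∃ m : ℤ, b = w.val + M * m := by
    have : ((b - w.val : ℤ) : ZMod M) = 0 := by simp [h]
    obtain ⟨m, hm⟩ := (ZMod.intCast_zmod_eq_zero_iff_dvd _ _).mp this
    exact ⟨m, by linear_combination hm⟩
  have hM : (M : ℂ) ≠ 0 := NeZero.ne _
  rw [zetaC, ← Complex.exp_nat_mul, Complex.exp_eq_exp_iff_exists_int]
  refine ⟨m, ?_⟩
  subst hm
  push_cast
  field_simp

theorem exp_two_pi_mul_affine (τ : ℍ) (d : ℕ) (b : ℤ) (w : ZMod M) (h : (b : ZMod M) = w) :
    exp (2 * Real.pi * I * (((d : ℂ) * τ + b) / M)) =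
      Periodic.qParam (M : ℝ) (τ : ℂ) ^ d * zetaC M ^ w.val := by
  rw [← exp_two_pi_mul_int_div b w h, Periodic.qParam, ← Complex.exp_nat_mul, ← Complex.exp_add]
  congr 1
  push_cast
  ring

/-- The `n`-th divisor sum attached to the class `(u, w)`. -/
def clsCoef (j : ℕ) (u w : ZMod M) (n : ℕ) : ℂ :=
  ∑ d ∈ n.divisors.filter (fun d : ℕ => (d : ZMod M) = u),
    ((n / d) ^ j : ℕ) * zetaC M ^ (w.val * (n / d))

/-- The double series of the class `(u, w)`. -/
def clsTerm (j : ℕ) (u w : ZMod M) (τ : ℍ) (p : ℕ+ × ℕ+) : ℂ :=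
  if ((p.1 : ℕ) : ZMod M) = u then
    (p.2 : ℕ) ^ j * (zetaC M ^ w.val) ^ (p.2 : ℕ) *
      Periodic.qParam (M : ℝ) (τ : ℂ) ^ ((p.1 : ℕ) * p.2)
  else 0

theorem summable_clsTerm (j : ℕ) (u w : ZMod M) (τ : ℍ) : Summable (clsTerm j u w τ) := by
  refine Summable.of_norm_bounded (g := fun p : ℕ+ × ℕ+ =>
    ((p.2 : ℕ) : ℝ) ^ j * ‖Periodic.qParam (M : ℝ) (τ : ℂ)‖ ^ ((p.1 : ℕ) * p.2))
    (summable_prod_mul_pow j (by simpa using UpperHalfPlane.norm_qParam_lt_one M τ)) fun p => ?_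
  unfold clsTerm
  split_ifs
  · simp [norm_zetaC]
  · simp only [norm_zero]
    positivity

/-- Grouping the double series by `n = dk`. -/
theorem hasSum_clsCoef (j : ℕ) (u w : ZMod M) (τ : ℍ) :
    HasSum (fun n : ℕ => clsCoef j u w n * Periodic.qParam (M : ℝ) (τ : ℂ) ^ n)
      (∑' p, clsTerm j u w τ p) := by
  have h := ((sigmaAntidiagonalEquivProd.hasSum_iff).mpr (summable_clsTerm j u w τ).hasSum).sigma
    fun n => hasSum_fintype _
  refine (PNat.coe_injective.hasSum_iff ?_).mp (h.congr_fun fun n => ?_)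
  · intro m hm
    obtain rfl : m = 0 := by
      by_contra hne
      exact hm ⟨⟨m, Nat.pos_of_ne_zero hne⟩, rfl⟩
    simp [clsCoef]
  · simp only [comp_apply, Finset.univ_eq_attach]
    let g : ℕ × ℕ → ℂ := fun x => if ((x.1 : ℕ) : ZMod M) = u then
      (x.2 : ℂ) ^ j * (zetaC M ^ w.val) ^ x.2 *
        Periodic.qParam (M : ℝ) (τ : ℂ) ^ (x.1 * x.2) else 0
    change _ = ∑ b ∈ (n : ℕ).divisorsAntidiagonal.attach, g b.1
    rw [Finset.sum_attach _ g]
    simp only [g]
    rw [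
      Nat.sum_divisorsAntidiagonal (fun a b : ℕ => if ((a : ℕ) : ZMod M) = u then
        (b : ℂ) ^ j * (zetaC M ^ w.val) ^ b *
          Periodic.qParam (M : ℝ) (τ : ℂ) ^ (a * b) else 0),
      clsCoef, Finset.sum_mul, Finset.sum_filter]
    refine Finset.sum_congr rfl fun d hd => ?_
    rw [Nat.mul_div_cancel' (Nat.dvd_of_mem_divisors hd), ← pow_mul]
    split_ifs <;> simp

/-- The double series summed in the second variable. -/
theorem hasSum_clsInner (j : ℕ) (u w : ZMod M) (τ : ℍ) :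
    HasSum (fun d : ℕ+ => ∑' k : ℕ+, clsTerm j u w τ (d, k)) (∑' p, clsTerm j u w τ p) :=
  (summable_clsTerm j u w τ).hasSum.prod_fiberwise fun d =>
    ((summable_clsTerm j u w τ).comp_injective (fun _ _ h => (Prod.ext_iff.mp h).2 :
      Injective (fun k : ℕ+ => (d, k)))).hasSum

theorem tsum_clsTerm_fiber (j : ℕ) (u w : ZMod M) (τ : ℍ) (d : ℕ+) (b : ℤ)
    (hd : ((d : ℕ) : ZMod M) = u) (hb : (b : ZMod M) = w) :
    ∑' k : ℕ+, clsTerm j u w τ (d, k) =
      ∑' k : ℕ+, ((k : ℕ) : ℂ) ^ j *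
        exp (2 * Real.pi * I * ((((d : ℕ) : ℂ) * τ + b) / M)) ^ (k : ℕ) := by
  refine tsum_congr fun k => ?_
  rw [clsTerm, if_pos hd, exp_two_pi_mul_affine τ _ b w hb, mul_pow, ← pow_mul, ← pow_mul]
  ring

end Fermat.Agent.WeightOneGalois
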