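import Mathlib.Analysis.Complex.Liouville
import Mathlib.Analysis.Complex.RemovableSingularity
import Fermat.Agent.WeightOneGalois.Forms.Series

/-!
# The cotangent series and its transformation under `τ ↦ -1/τ`

`cotF τ z = π cot πz + ∑_{n ≥ 1} (π cot π(z + nτ) + π cot π(z - nτ))`, written with exponentials.
-/

noncomputable section

namespace Fermat.Agent.WeightOneGalois

open UpperHalfPlane hiding I
open Complex Function Filter Set
open scoped Real Topology

/-- `e/(1 - e)`, `e = e^(2πiz)`. -/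
def ellq (z : ℂ) : ℂ := exp (2 * π * I * z) / (1 - exp (2 * π * I * z))

/-- `π cot πz`. -/
def cotq (z : ℂ) : ℂ := -(π * I) - 2 * π * I * ellq z

/-- `∑_{n ≥ 1} ellq (z + nτ)`. -/
def lamb (τ : ℍ) (z : ℂ) : ℂ := ∑' n : ℕ, ellq (z + ((n : ℂ) + 1) * τ)

/-- The cotangent series. -/
def cotF (τ : ℍ) (z : ℂ) : ℂ := cotq z - 2 * π * I * (lamb τ z - lamb τ (-z))

/-- The lattice `ℤ + τℤ`. -/
def latL (τ : ℍ) : Set ℂ := {z | ∃ m n : ℤ, z = m + n * τ}

theorem ellq_add_int (z : ℂ) (k : ℤ) : ellq (z + k) = ellq z := by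
  have h : exp (2 * π * I * (z + k)) = exp (2 * π * I * z) := by
    rw [mul_add, Complex.exp_add, show 2 * π * I * (k : ℂ) = k * (2 * π * I) by ring,
      Complex.exp_int_mul_two_pi_mul_I, mul_one]
  rw [ellq, ellq, h]

theorem ellq_add_one (z : ℂ) : ellq (z + 1) = ellq z := by
  simpa using ellq_add_int z 1

theorem ellq_add_ellq_neg {z : ℂ} (hz : exp (2 * π * I * z) ≠ 1) : ellq z + ellq (-z) = -1 := by
  have h0 := Complex.exp_ne_zero (2 * π * I * z)
  have h1 : (1 : ℂ) - exp (2 * π * I * z) ≠ 0 := sub_ne_zero.mpr (Ne.symm hz)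
  have h2 : exp (2 * π * I * z) - 1 ≠ 0 := sub_ne_zero.mpr hz
  rw [ellq, ellq, show 2 * π * I * -z = -(2 * π * I * z) by ring, Complex.exp_neg]
  field_simp
  ring

theorem norm_exp_shift (z : ℂ) (τ : ℍ) (n : ℕ) :
    ‖exp (2 * π * I * (z + ((n : ℂ) + 1) * τ))‖ =
      ‖exp (2 * π * I * z)‖ * ‖exp (2 * π * I * (τ : ℂ))‖ ^ (n + 1) := by
  rw [← norm_pow, ← norm_mul, ← Complex.exp_nat_mul, ← Complex.exp_add]
  congr 2
  push_cast
  ring

/-- Locally uniform bound of the terms of `lamb`. -/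
theorem exists_bound_lamb (τ : ℍ) (z : ℂ) : ∃ (N : ℕ) (u : ℕ → ℝ), Summable u ∧
    ∀ w ∈ Metric.ball z 1, ∀ n : ℕ, N ≤ n → ‖ellq (w + ((n : ℂ) + 1) * τ)‖ ≤ u n := by
  set r : ℝ := ‖exp (2 * π * I * (τ : ℂ))‖
  have hr : r < 1 := norm_exp_two_pi_I_lt_one τ
  set B : ℝ := Real.exp (2 * π * (|z.im| + 1))
  have hlim : Tendsto (fun n : ℕ => B * r ^ (n + 1)) atTop (𝓝 0) := by
    simpa using ((tendsto_pow_atTop_nhds_zero_of_lt_one (norm_nonneg _) hr).comp
      (tendsto_add_atTop_nat 1)).const_mul B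
  obtain ⟨N, hN⟩ := eventually_atTop.mp
      (hlim.eventually (Iio_mem_nhds (by norm_num : (0 : ℝ) < 1 / 2)))
  refine ⟨N, fun n => 2 * (B * r ^ (n + 1)),
    (((summable_geometric_of_lt_one (norm_nonneg _) hr).comp_injective
      (add_left_injective 1)).mul_left B).mul_left 2, fun w hw n hn => ?_⟩
  have hwB : ‖exp (2 * π * I * w)‖ ≤ B := by
    rw [Complex.norm_exp]
    refine Real.exp_le_exp.mpr ?_
    have h1 : |(w - z).im| ≤ 1 :=
      ((Complex.abs_im_le_norm _).trans_lt (by rwa [Metric.mem_ball, dist_eq_norm] at hw)).le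
    rw [Complex.sub_im, abs_le] at h1
    have h2 : (2 * π * I * w).re = 2 * π * (-w.im) := by simp
    rw [h2]
    gcongr
    linarith [neg_abs_le z.im, h1.1]
  have hb : ‖exp (2 * π * I * (w + ((n : ℂ) + 1) * τ))‖ ≤ B * r ^ (n + 1) := by
    rw [norm_exp_shift]
    gcongr
  have hhalf : B * r ^ (n + 1) ≤ 1 / 2 := le_of_lt (hN n hn)
  have hden : 1 / 2 ≤ ‖(1 : ℂ) - exp (2 * π * I * (w + ((n : ℂ) + 1) * τ))‖ := by
    have := norm_sub_norm_le (1 : ℂ) (exp (2 * π * I * (w + ((n : ℂ) + 1) * τ)))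
    rw [norm_one] at this
    linarith
  rw [ellq, norm_div]
  calc _ ≤ B * r ^ (n + 1) / (1 / 2) := by gcongr
    _ = _ := by ring

theorem summable_lamb (τ : ℍ) (z : ℂ) : Summable fun n : ℕ => ellq (z + ((n : ℂ) + 1) * τ) := by
  obtain ⟨N, u, hu, hb⟩ := exists_bound_lamb τ z
  exact Summable.of_norm_bounded_eventually_nat hu
    (eventually_atTop.mpr ⟨N, fun n hn => hb z (Metric.mem_ball_self one_pos) n hn⟩)

theorem lamb_add_one (τ : ℍ) (z : ℂ) : lamb τ (z + 1) = lamb τ z := by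
  refine tsum_congr fun n => ?_
  rw [add_right_comm, ellq_add_one]

theorem lamb_eq_add (τ : ℍ) (z : ℂ) : lamb τ z = ellq (z + τ) + lamb τ (z + τ) := by
  rw [lamb, (summable_lamb τ z).tsum_eq_zero_add, lamb]
  congr 1
  · simp
  · refine tsum_congr fun n => ?_
    congr 1
    push_cast
    ring

theorem differentiableAt_ellq {z : ℂ} (h : exp (2 * π * I * z) ≠ 1) :
    DifferentiableAt ℂ ellq z := by
  unfold ellq
  exact DifferentiableAt.div (by fun_prop) (by fun_prop) (sub_ne_zero.mpr (Ne.symm h))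

theorem differentiableAt_lamb (τ : ℍ) (z : ℂ)
    (h : ∀ n : ℕ, exp (2 * π * I * (z + ((n : ℂ) + 1) * τ)) ≠ 1) :
    DifferentiableAt ℂ (lamb τ) z := by
  obtain ⟨N, u, hu, hb⟩ := exists_bound_lamb τ z
  obtain ⟨m, hm⟩ := exists_nat_gt ((|z.im| + 1) / τ.im)
  have hne : ∀ w ∈ Metric.ball z 1, ∀ n ≥ m, exp (2 * π * I * (w + ((n : ℂ) + 1) * τ)) ≠ 1 := by
    intro w hw n hn h1
    rw [Complex.exp_eq_one_iff] at h1
    obtain ⟨k, hk⟩ := h1
    have hwk : w + ((n : ℂ) + 1) * τ = k :=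
      mul_left_cancel₀ Complex.two_pi_I_ne_zero (by rw [hk]; ring)
    have him := congrArg Complex.im hwk
    simp at him
    have h1 : |(w - z).im| ≤ 1 :=
      ((Complex.abs_im_le_norm _).trans_lt (by rwa [Metric.mem_ball, dist_eq_norm] at hw)).le
    rw [Complex.sub_im, abs_le] at h1
    rw [div_lt_iff₀ τ.im_pos] at hm
    have hmn : (m : ℝ) * τ.im ≤ n * τ.im := by
      gcongr
    have := τ.im_pos
    linarith [neg_abs_le z.im, h1.1]
  have hd : ∀ (n : ℕ) (w : ℂ), exp (2 * π * I * (w + ((n : ℂ) + 1) * τ)) ≠ 1 →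
      DifferentiableAt ℂ (fun x => ellq (x + ((n : ℂ) + 1) * τ)) w :=
    fun n w hw => (differentiableAt_ellq hw).comp w (differentiableAt_id.add_const _)
  have heq : lamb τ = fun w => (∑ n ∈ Finset.range (m + N), ellq (w + ((n : ℂ) + 1) * τ)) +
      ∑' n : ℕ, ellq (w + (((n + (m + N) : ℕ) : ℂ) + 1) * τ) :=
    funext fun w => ((summable_lamb τ w).sum_add_tsum_nat_add (m + N)).symm
  rw [heq]
  refine DifferentiableAt.fun_add (DifferentiableAt.fun_sum fun n _ => hd n z (h n)) ?_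
  exact (Complex.differentiableOn_tsum_of_summable_norm (u := fun n => u (n + (m + N)))
    (hu.comp_injective (add_left_injective _))
    (fun n w hw => (hd _ w (hne w hw _ (by omega))).differentiableWithinAt) Metric.isOpen_ball
    fun n w hw => hb w hw _ (by omega)).differentiableAt (Metric.ball_mem_nhds z one_pos)

theorem exp_eq_one_iff_int {w : ℂ} : exp (2 * π * I * w) = 1 ↔ ∃ k : ℤ, w = k := by
  rw [Complex.exp_eq_one_iff]
  exact exists_congr fun k => by
    rw [mul_comm ((k : ℤ) : ℂ) _, mul_right_inj' Complex.two_pi_I_ne_zero]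

theorem exp_ne_one_of_not_mem {τ : ℍ} {z : ℂ} (hz : z ∉ latL τ) (n : ℤ) :
    exp (2 * π * I * (z + n * τ)) ≠ 1 := fun h => by
  obtain ⟨k, hk⟩ := exp_eq_one_iff_int.mp h
  exact hz ⟨k, -n, by push_cast; linear_combination hk⟩

theorem neg_mem_latL {τ : ℍ} {z : ℂ} (hz : z ∈ latL τ) : -z ∈ latL τ := by
  obtain ⟨m, n, rfl⟩ := hz
  exact ⟨-m, -n, by push_cast; ring⟩

theorem add_mem_latL {τ : ℍ} {z w : ℂ} (hz : z ∈ latL τ) (hw : w ∈ latL τ) :
    z + w ∈ latL τ := by
  obtain ⟨m, n, rfl⟩ := hz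
  obtain ⟨a, b, rfl⟩ := hw
  exact ⟨m + a, n + b, by push_cast; ring⟩

theorem one_mem_latL (τ : ℍ) : (1 : ℂ) ∈ latL τ := ⟨1, 0, by simp⟩

theorem self_mem_latL (τ : ℍ) : (τ : ℂ) ∈ latL τ := ⟨0, 1, by simp⟩

theorem add_mem_latL_iff {τ : ℍ} {z w : ℂ} (hw : w ∈ latL τ) :
    z + w ∈ latL τ ↔ z ∈ latL τ :=
  ⟨fun h => by simpa using add_mem_latL h (neg_mem_latL hw), fun h => add_mem_latL h hw⟩

theorem le_norm_of_mem_latL {τ : ℍ} {z : ℂ} (hz : z ∈ latL τ) (h0 : z ≠ 0) :
    EisensteinSeries.r τ ≤ ‖z‖ := by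
  obtain ⟨m, n, rfl⟩ := hz
  rw [add_comm]
  rcases eq_or_ne n 0 with rfl | hn
  · have hm : (1 : ℝ) ≤ (m : ℝ) ^ 2 := by
      have h : m ≠ 0 := by
        rintro rfl
        simp at h0
      exact_mod_cast (one_le_sq_iff_one_le_abs _).mpr (Int.one_le_abs h)
    simpa using EisensteinSeries.auxbound2 τ 0 hm
  · have hn' : (1 : ℝ) ≤ (n : ℝ) ^ 2 := by
      exact_mod_cast (one_le_sq_iff_one_le_abs _).mpr (Int.one_le_abs hn)
    simpa using EisensteinSeries.auxbound1 τ (m : ℝ) hn'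

theorem isClosed_latL (τ : ℍ) : IsClosed (latL τ) :=
  Metric.isClosed_of_pairwise_le_dist (EisensteinSeries.r_pos τ) fun x hx y hy hxy => by
    change _ ≤ dist x y
    rw [dist_eq_norm, sub_eq_add_neg]
    exact le_norm_of_mem_latL (add_mem_latL hx (neg_mem_latL hy))
      (by rw [← sub_eq_add_neg]; exact sub_ne_zero.mpr hxy)

theorem cotq_add_one (z : ℂ) : cotq (z + 1) = cotq z := by rw [cotq, cotq, ellq_add_one]

theorem cotF_add_one (τ : ℍ) (z : ℂ) : cotF τ (z + 1) = cotF τ z := by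
  rw [cotF, cotF, cotq_add_one, lamb_add_one, ← lamb_add_one τ (-(z + 1)),
    show -(z + 1) + 1 = -z by ring]

theorem cotF_add_self {τ : ℍ} {z : ℂ} (hz : z ∉ latL τ) :
    cotF τ (z + τ) = cotF τ z - 2 * π * I := by
  have h := ellq_add_ellq_neg (z := z) (by simpa using exp_ne_one_of_not_mem hz 0)
  have h1 := lamb_eq_add τ z
  have h2 := lamb_eq_add τ (-(z + τ))
  rw [show -(z + (τ : ℂ)) + τ = -z by ring] at h2
  rw [cotF, cotF, cotq, cotq, h1, h2]
  linear_combination (2 * (π : ℂ) * I) * h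

theorem cotF_neg {τ : ℍ} {z : ℂ} (hz : z ∉ latL τ) : cotF τ (-z) = -cotF τ z := by
  have h := ellq_add_ellq_neg (z := z) (by simpa using exp_ne_one_of_not_mem hz 0)
  rw [cotF, cotF, cotq, cotq, neg_neg]
  linear_combination (-2 * (π : ℂ) * I) * h

theorem differentiableAt_cotF {τ : ℍ} {z : ℂ} (hz : z ∉ latL τ) :
    DifferentiableAt ℂ (cotF τ) z := by
  have h0 : exp (2 * π * I * z) ≠ 1 := by simpa using exp_ne_one_of_not_mem hz 0
  have hz' : -z ∉ latL τ := fun h => hz (by simpa using neg_mem_latL h)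
  have hP := differentiableAt_lamb τ z fun n => by
    simpa using exp_ne_one_of_not_mem hz ((n : ℤ) + 1)
  have hN : DifferentiableAt ℂ (lamb τ) (-z) := differentiableAt_lamb τ (-z) fun n => by
    simpa using exp_ne_one_of_not_mem hz' ((n : ℤ) + 1)
  have hc : DifferentiableAt ℂ cotq z := by
    unfold cotq
    exact (differentiableAt_const _).fun_sub ((differentiableAt_ellq h0).const_mul _)
  unfold cotF
  exact hc.fun_sub ((hP.fun_sub (hN.comp z differentiableAt_id.neg)).const_mul _)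

/-- `(e^(2πiz) - 1)/z`. -/
def expSlope : ℂ → ℂ := dslope (fun z => exp (2 * π * I * z)) 0

theorem expSlope_zero : expSlope 0 = 2 * π * I := by
  rw [expSlope, dslope_same]
  have h : HasDerivAt (fun z : ℂ => exp (2 * π * I * z))
      (exp (2 * π * I * 0) * (2 * π * I * 1)) 0 :=
    ((hasDerivAt_id (0 : ℂ)).const_mul _).cexp
  simpa using h.deriv

/-- `π z cot πz` near the origin. -/
def cotCore (z : ℂ) : ℂ := π * I * (1 + exp (2 * π * I * z)) / expSlope z

/-- `π cot πz - 1/z` near the origin. -/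
def cotReg : ℂ → ℂ := dslope cotCore 0

theorem cotCore_zero : cotCore 0 = 1 := by
  rw [cotCore, expSlope_zero]
  have := Complex.two_pi_I_ne_zero
  simp
  field_simp
  ring

theorem differentiableAt_cotReg : DifferentiableAt ℂ cotReg 0 := by
  have hs : Differentiable ℂ expSlope := by
    rw [← differentiableOn_univ]
    exact (Complex.differentiableOn_dslope univ_mem).mpr (by fun_prop)
  have hU : IsOpen {z | expSlope z ≠ 0} := isOpen_ne_fun hs.continuous continuous_const
  have h0 : {z | expSlope z ≠ 0} ∈ 𝓝 (0 : ℂ) :=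
    hU.mem_nhds (by simp [expSlope_zero, Real.pi_ne_zero])
  have hK : DifferentiableOn ℂ cotCore {z | expSlope z ≠ 0} := by
    unfold cotCore
    exact DifferentiableOn.div (by fun_prop) hs.differentiableOn fun z hz => hz
  exact ((Complex.differentiableOn_dslope h0).mpr hK).differentiableAt h0

theorem cotq_eq {z : ℂ} (h0 : z ≠ 0) (hz : exp (2 * π * I * z) ≠ 1) :
    cotq z = z⁻¹ + cotReg z := by
  have h1 : (1 : ℂ) - exp (2 * π * I * z) ≠ 0 := sub_ne_zero.mpr (Ne.symm hz)
  have h2 : exp (2 * π * I * z) - 1 ≠ 0 := sub_ne_zero.mpr hz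
  rw [cotReg, dslope_of_ne _ h0, slope_def_field, cotCore_zero, cotCore, expSlope,
    dslope_of_ne _ h0, slope_def_field, cotq, ellq]
  simp only [sub_zero, mul_zero, Complex.exp_zero]
  generalize exp (2 * π * I * z) = E at h1 h2 ⊢
  rw [show (1 : ℂ) - E = -(E - 1) by ring, div_neg]
  field_simp
  ring

/-- The regular part of `cotF` at the origin. -/
def cotFReg (τ : ℍ) (z : ℂ) : ℂ := cotReg z - 2 * π * I * (lamb τ z - lamb τ (-z))

theorem differentiableAt_cotFReg (τ : ℍ) : DifferentiableAt ℂ (cotFReg τ) 0 := by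
  have h : ∀ n : ℕ, exp (2 * π * I * ((0 : ℂ) + ((n : ℂ) + 1) * τ)) ≠ 1 := fun n h => by
    obtain ⟨k, hk⟩ := exp_eq_one_iff_int.mp h
    have := congrArg Complex.im hk
    simp at this
    rcases this with h | h
    · linarith [(Nat.cast_nonneg n : (0 : ℝ) ≤ n)]
    · exact τ.im_ne_zero h
  have hP := differentiableAt_lamb τ 0 h
  have hN : DifferentiableAt ℂ (fun z => lamb τ (-z)) 0 :=
    DifferentiableAt.comp (0 : ℂ) (by simpa using hP) differentiableAt_id.neg
  unfold cotFReg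
  exact differentiableAt_cotReg.fun_sub ((hP.fun_sub hN).const_mul _)

/-- The transformation of `cotF` under `τ ↦ -1/τ`. -/
theorem cotF_inv {τ τ' : ℍ} (hτ : (τ' : ℂ) = -1 / τ) {z : ℂ} (hz : z ∉ latL τ) :
    (τ : ℂ)⁻¹ * cotF τ' (z / τ) = cotF τ z + 2 * π * I * z / τ := by
  classical
  have hτ0 : (τ : ℂ) ≠ 0 := τ.ne_zero
  have hdiv : ∀ w : ℂ, w / τ ∈ latL τ' ↔ w ∈ latL τ := by
    intro w
    constructor
    · rintro ⟨m, n, h⟩
      refine ⟨-n, m, ?_⟩
      rw [hτ] at h
      field_simp at h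
      push_cast
      linear_combination h
    · rintro ⟨m, n, rfl⟩
      refine ⟨n, -m, ?_⟩
      rw [hτ]
      field_simp
      push_cast
      ring
  set H : ℂ → ℂ := fun w => (τ : ℂ)⁻¹ * cotF τ' (w / τ) - cotF τ w - 2 * π * I * w / τ with hH
  set R : ℂ → ℂ := fun w => (τ : ℂ)⁻¹ * cotFReg τ' (w / τ) - cotFReg τ w - 2 * π * I * w / τ
    with hR
  set Ht : ℂ → ℂ := fun w => if w ∈ latL τ then R 0 else H w with hHt
  have h1 : Periodic Ht 1 := fun w => by
    simp only [hHt, add_mem_latL_iff (one_mem_latL τ)]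
    split_ifs with hw
    · rfl
    · have hw' : w / τ - (τ' : ℂ) ∉ latL τ' := by
        rw [sub_eq_add_neg, add_mem_latL_iff (neg_mem_latL (self_mem_latL τ')), hdiv]
        exact hw
      have e := cotF_add_self hw'
      rw [sub_add_cancel] at e
      rw [hH]
      simp only [cotF_add_one]
      rw [show (w + 1) / (τ : ℂ) = w / τ - τ' by rw [hτ]; ring]
      linear_combination (-(τ : ℂ)⁻¹) * e
  have h2 : Periodic Ht (τ : ℂ) := fun w => by
    simp only [hHt, add_mem_latL_iff (self_mem_latL τ)]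
    split_ifs with hw
    · rfl
    · rw [hH]
      simp only [cotF_add_self hw]
      rw [add_div, div_self hτ0, cotF_add_one]
      field_simp
      ring
  have hper : ∀ ω ∈ latL τ, Periodic Ht ω := by
    rintro _ ⟨m, n, rfl⟩
    simpa using (h1.int_mul m).add_period (h2.int_mul n)
  have hr := EisensteinSeries.r_pos τ
  have h00 : DifferentiableAt ℂ Ht 0 := by
    have hRd : DifferentiableAt ℂ R 0 := by
      have ha : DifferentiableAt ℂ (fun w : ℂ => cotFReg τ' (w / τ)) 0 :=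
        DifferentiableAt.comp (0 : ℂ) (g := cotFReg τ') (f := fun w : ℂ => w / τ)
          (by simpa using differentiableAt_cotFReg τ') (differentiableAt_id.div_const _)
      exact ((ha.const_mul _).fun_sub (differentiableAt_cotFReg τ)).fun_sub
        (by fun_prop : DifferentiableAt ℂ (fun w : ℂ => 2 * π * I * w / τ) 0)
    refine hRd.congr_of_eventuallyEq ?_
    filter_upwards [Metric.ball_mem_nhds (0 : ℂ) hr] with w hw
    rw [Metric.mem_ball, dist_zero_right] at hw
    simp only [hHt]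
    split_ifs with hwL
    · rcases eq_or_ne w 0 with rfl | hw0
      · rfl
      · linarith [le_norm_of_mem_latL hwL hw0]
    · have hw0 : w ≠ 0 := fun h => hwL ⟨0, 0, by simp [h]⟩
      have e1 := cotq_eq hw0 (by simpa using exp_ne_one_of_not_mem hwL 0)
      have e2 := cotq_eq (z := w / τ) (div_ne_zero hw0 hτ0)
        (by simpa using exp_ne_one_of_not_mem (mt (hdiv w).mp hwL) 0)
      rw [hH, hR]
      simp only [cotF, cotFReg, e1, e2]
      field_simp
      ring
  have hdiff : Differentiable ℂ Ht := by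
    intro w
    by_cases hw : w ∈ latL τ
    · have he : Ht = Ht ∘ fun x => x - w := funext fun x => by
        simpa using (hper w hw (x - w))
      rw [he]
      exact DifferentiableAt.comp w (by simpa using h00) (by fun_prop)
    · have hHd : DifferentiableAt ℂ H w := by
        have ha : DifferentiableAt ℂ (fun x : ℂ => cotF τ' (x / τ)) w :=
          DifferentiableAt.comp w (differentiableAt_cotF (mt (hdiv w).mp hw))
            (differentiableAt_id.div_const _)
        exact ((ha.const_mul _).fun_sub (differentiableAt_cotF hw)).fun_sub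
          (by fun_prop : DifferentiableAt ℂ (fun x : ℂ => 2 * π * I * x / τ) w)
      refine hHd.congr_of_eventuallyEq ?_
      filter_upwards [(isClosed_latL τ).isOpen_compl.mem_nhds hw] with x hx
      simp only [hHt]
      rw [if_neg hx]
  have hbdd : Bornology.IsBounded (Set.range Ht) := by
    have hK : IsCompact ((fun p : ℝ × ℝ => (p.1 : ℂ) + p.2 * τ) '' (Icc 0 1 ×ˢ Icc 0 1)) :=
      (isCompact_Icc.prod isCompact_Icc).image (by fun_prop)
    refine (hK.image hdiff.continuous).isBounded.subset ?_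
    rintro _ ⟨w, rfl⟩
    set y : ℝ := w.im / τ.im with hy
    set x : ℝ := w.re - y * τ.re with hx
    refine ⟨_, ⟨(Int.fract x, Int.fract y), ⟨⟨Int.fract_nonneg _, (Int.fract_lt_one _).le⟩,
      Int.fract_nonneg _, (Int.fract_lt_one _).le⟩, rfl⟩, ?_⟩
    have hw : w = ((Int.fract x : ℝ) : ℂ) + (Int.fract y : ℝ) * τ +
        ((⌊x⌋ : ℤ) + (⌊y⌋ : ℤ) * τ) := by
      have hw2 : w = (x : ℂ) + (y : ℝ) * τ := by
        apply Complex.ext
        · simp [hx]
        · simp [hy, τ.im_ne_zero]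
      conv_lhs => rw [hw2, ← Int.fract_add_floor x, ← Int.fract_add_floor y]
      push_cast
      ring
    conv_rhs => rw [hw]
    exact (hper _ ⟨_, _, rfl⟩ _).symm
  have hz' : -z ∉ latL τ := fun h => hz (by simpa using neg_mem_latL h)
  have hc := hdiff.apply_eq_apply_of_bounded hbdd z (-z)
  simp only [hHt, if_neg hz, if_neg hz', hH, neg_div, cotF_neg hz,
    cotF_neg (mt (hdiv z).mp hz)] at hc
  linear_combination hc / 2

end Fermat.Agent.WeightOneGalois
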