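import Mathlib.NumberTheory.ModularForms.LevelOne.Basic
import Fermat.Agent.Eis.Expansion
import Fermat.Agent.WeightOneGalois.Forms.Cot

/-!
# Weight one Eisenstein series of level `M`

Built from the cotangent series at the torsion points `(uτ + w)/M`; gives the transformation law
and the expansion needed for `Forms/Eis`.
-/

noncomputable section

namespace Fermat.Agent.WeightOneGalois

open UpperHalfPlane hiding I
open Complex Function Matrix Matrix.SpecialLinearGroup ModularGroup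
open scoped MatrixGroups ModularForm Real Manifold

variable {M : ℕ} [NeZero M]

/-- The weight one series of an integral row. -/
def eisRaw (M : ℕ) (a b : ℤ) (τ : ℍ) : ℂ :=
  cotF τ (((a : ℂ) * τ + b) / M) / (2 * π * I) + a / M

/-- The weight one series of a row modulo `M`. -/
def eisOneV (v : ZMod M × ZMod M) (τ : ℍ) : ℂ :=
  if v = 0 then 0 else eisRaw M v.1.val v.2.val τ

theorem eisRaw_not_mem {v : ZMod M × ZMod M} (hv : v ≠ 0) {a b : ℤ} (ha : (a : ZMod M) = v.1)
    (hb : (b : ZMod M) = v.2) (τ : ℍ) : ((a : ℂ) * τ + b) / M ∉ latL τ := by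
  rintro ⟨m, n, h⟩
  have hM : (M : ℂ) ≠ 0 := NeZero.ne _
  rw [div_eq_iff hM] at h
  have him := congrArg Complex.im h
  simp at him
  have h1 : (a : ℝ) = n * M := mul_right_cancel₀ τ.im_ne_zero (by linarith)
  have h1' : (a : ℂ) = n * M := by exact_mod_cast h1
  have h2 : (b : ℂ) = m * M := by linear_combination h - (τ : ℂ) * h1'
  have h1z : a = n * M := by exact_mod_cast h1'
  have h2z : b = m * M := by exact_mod_cast h2
  exact hv (Prod.ext (by simp [← ha, h1z]) (by simp [← hb, h2z]))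

theorem cotF_add_int (τ : ℍ) (z : ℂ) (k : ℤ) : cotF τ (z + k) = cotF τ z := by
  simpa using (Periodic.int_mul (f := cotF τ) (c := 1) (fun w => cotF_add_one τ w) k) z

theorem cotF_add_lattice {τ : ℍ} {z : ℂ} (hz : z ∉ latL τ) (m k : ℤ) :
    cotF τ (z + (k + m * τ)) = cotF τ z - 2 * π * I * m := by
  rw [show z + ((k : ℂ) + m * τ) = z + m * τ + k by ring, cotF_add_int]
  have hmem : ∀ j : ℤ, z + j * τ ∉ latL τ := fun j =>
    (add_mem_latL_iff (⟨0, j, by simp⟩ : (j : ℂ) * τ ∈ latL τ)).not.mpr hz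
  induction m using Int.induction_on with
  | zero => simp
  | succ n ih =>
    have e := cotF_add_self (hmem n)
    push_cast at e ih ⊢
    rw [show z + ((n : ℂ) + 1) * τ = z + n * τ + τ by ring, e, ih]
    ring
  | pred n ih =>
    have e := cotF_add_self (hmem (-(n : ℤ) - 1))
    push_cast at e ih ⊢
    rw [show z + (-(n : ℂ) - 1) * τ + τ = z + -(n : ℂ) * τ by ring] at e
    linear_combination ih - e

theorem eisOneV_eq {v : ZMod M × ZMod M} (hv : v ≠ 0) {a b : ℤ} (ha : (a : ZMod M) = v.1)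
    (hb : (b : ZMod M) = v.2) (τ : ℍ) : eisOneV v τ = eisRaw M a b τ := by
  have hM : (M : ℂ) ≠ 0 := NeZero.ne _
  obtain ⟨m, hm⟩ : ∃ m : ℤ, a = v.1.val + M * m := by
    obtain ⟨m, hm⟩ := (ZMod.intCast_zmod_eq_zero_iff_dvd (a - v.1.val) M).mp (by simp [ha])
    exact ⟨m, by linarith⟩
  obtain ⟨k, hk⟩ : ∃ k : ℤ, b = v.2.val + M * k := by
    obtain ⟨k, hk⟩ := (ZMod.intCast_zmod_eq_zero_iff_dvd (b - v.2.val) M).mp (by simp [hb])
    exact ⟨k, by linarith⟩
  rw [eisOneV, if_neg hv, eisRaw, eisRaw, hm, hk]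
  rw [show ((((v.1.val : ℤ) + M * m : ℤ) : ℂ) * τ + (((v.2.val : ℤ) + M * k : ℤ) : ℂ)) / M =
    (((v.1.val : ℤ) : ℂ) * τ + ((v.2.val : ℤ) : ℂ)) / M + (k + m * τ) by
      push_cast; field_simp; ring,
    cotF_add_lattice (eisRaw_not_mem hv (by simp) (by simp) τ)]
  have := Real.pi_ne_zero
  push_cast
  field_simp
  ring

theorem cotF_T (τ : ℍ) (z : ℂ) : cotF (ModularGroup.T • τ) z = cotF τ z := by
  have hl : ∀ w, lamb (ModularGroup.T • τ) w = lamb τ w := fun w => tsum_congr fun n => by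
    rw [show w + ((n : ℂ) + 1) * ((ModularGroup.T • τ : ℍ) : ℂ) =
      w + ((n : ℂ) + 1) * τ + ((n + 1 : ℤ) : ℂ) by
        rw [modular_T_smul, coe_vadd]; push_cast; ring, ellq_add_int]
  rw [cotF, cotF, hl, hl]

theorem eisOneV_slash_T (v : ZMod M × ZMod M) :
    eisOneV v ∣[(1 : ℤ)] ModularGroup.T = eisOneV (rowMul v ModularGroup.T) := by
  ext τ
  rw [ModularForm.SL_slash_apply, ModularGroup.denom_apply]
  by_cases hv : v = 0
  · simp [eisOneV, hv, rowMul_zero]
  · have hv' : rowMul v ModularGroup.T ≠ 0 := fun h => hv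
        (rowMul_inj (h.trans (rowMul_zero _).symm))
    have ha : (((v.1.val : ℤ)) : ZMod M) = (rowMul v ModularGroup.T).1 := by
      simp [rowMul, ModularGroup.coe_T]
    have hb : ((((v.1.val : ℤ) + v.2.val : ℤ)) : ZMod M) = (rowMul v ModularGroup.T).2 := by
      simp [rowMul, ModularGroup.coe_T]
    rw [eisOneV_eq hv' ha hb, eisOneV, if_neg hv, eisRaw, eisRaw, cotF_T]
    simp only [modular_T_smul, coe_vadd, ModularGroup.coe_T]
    norm_num
    ring_nf

theorem eisOneV_slash_S (v : ZMod M × ZMod M) :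
    eisOneV v ∣[(1 : ℤ)] ModularGroup.S = eisOneV (rowMul v ModularGroup.S) := by
  ext τ
  rw [ModularForm.SL_slash_apply, ModularGroup.denom_apply]
  by_cases hv : v = 0
  · simp [eisOneV, hv, rowMul_zero]
  · have hv' : rowMul v ModularGroup.S ≠ 0 := fun h => hv
        (rowMul_inj (h.trans (rowMul_zero _).symm))
    have ha : (((v.2.val : ℤ)) : ZMod M) = (rowMul v ModularGroup.S).1 := by
      simp [rowMul, ModularGroup.coe_S]
    have hb : ((-(v.1.val : ℤ)) : ZMod M) = (rowMul v ModularGroup.S).2 := by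
      simp [rowMul, ModularGroup.coe_S]
    rw [eisOneV_eq hv' (a := (v.2.val : ℤ)) (b := -(v.1.val : ℤ)) ha (by simpa using hb), eisOneV,
      if_neg hv, eisRaw, eisRaw]
    have hτ' : ((ModularGroup.S • τ : ℍ) : ℂ) = -1 / τ := by
      rw [modular_S_smul, coe_mk]
      rw [inv_neg, neg_div, one_div]
    have hz := eisRaw_not_mem hv' (a := (v.2.val : ℤ)) (b := -(v.1.val : ℤ)) ha
      (by simpa using hb) τ
    have h := cotF_inv hτ' hz
    have hτ0 : (τ : ℂ) ≠ 0 := τ.ne_zero
    have hM : (M : ℂ) ≠ 0 := NeZero.ne _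
    have hπ := Real.pi_ne_zero
    rw [hτ', show (((v.1.val : ℤ) : ℂ) * (-1 / τ) + ((v.2.val : ℤ) : ℂ)) / M =
      ((((v.2.val : ℤ) : ℂ) * τ + ((-(v.1.val : ℤ) : ℤ) : ℂ)) / M) / τ by
        push_cast; field_simp; ring]
    rw [show ((ModularGroup.S 1 0 : ℤ) : ℂ) * τ + ((ModularGroup.S 1 1 : ℤ) : ℂ) = τ by
      simp [ModularGroup.coe_S], _root_.zpow_neg_one]
    push_cast at h ⊢
    field_simp at h ⊢
    linear_combination h

/-- `SL(2, ℤ)` permutes the weight-one series through its action on rows. -/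
theorem eisOneV_slash (v : ZMod M × ZMod M) (γ : SL(2, ℤ)) :
    eisOneV v ∣[(1 : ℤ)] γ = eisOneV (rowMul v γ) := by
  have hγ : γ ∈ Subgroup.closure {ModularGroup.S, ModularGroup.T} := by
    simp [SpecialLinearGroup.SL2Z_generators]
  induction hγ using Subgroup.closure_induction generalizing v with
  | mem x hx =>
    rcases hx with rfl | rfl
    · exact eisOneV_slash_S v
    · exact eisOneV_slash_T v
  | one => rw [SlashAction.slash_one, rowMul_one]
  | mul x y _ _ hx hy => rw [SlashAction.slash_mul, hx, hy, rowMul_mul]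
  | inv x _ hx =>
    conv_lhs => rw [show v = rowMul (rowMul v x⁻¹) x by simp [← rowMul_mul, rowMul_one]]
    rw [← hx, ← SlashAction.slash_mul, mul_inv_cancel, SlashAction.slash_one]

/-- Coefficients of the weight one series. -/
def eisOneCoef (v : ZMod M × ZMod M) (n : ℕ) : ℂ :=
  if n = 0 then
    (v.1.val : ℂ) / M - 1 / 2 -
      (if v.1 = 0 then zetaC M ^ v.2.val / (1 - zetaC M ^ v.2.val) else 0)
  else clsCoef 0 (-v.1) (-v.2) n - clsCoef 0 v.1 v.2 n

theorem hasSum_ellq_class (u w : ZMod M) (b : ℤ) (hb : (b : ZMod M) = w) (r : ℕ) (h1 : 1 ≤ r)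
    (h2 : r ≤ M) (hr : (r : ZMod M) = u) (τ : ℍ) :
    HasSum (fun n : ℕ => ellq ((((r + n * M : ℕ) : ℂ) * τ + b) / M))
      (∑' p, clsTerm 0 u w τ p) := by
  let g : ℕ → ℕ+ := fun n => ⟨r + n * M, by omega⟩
  have hg : Injective g := fun a c h => by
    have h' : r + a * M = r + c * M := congrArg Subtype.val h
    exact Nat.eq_of_mul_eq_mul_right (NeZero.pos M) (by omega)
  refine ((hg.hasSum_iff ?_).mpr (hasSum_clsInner 0 u w τ)).congr_fun fun n => ?_
  · intro d hd
    refine (tsum_congr fun k => ?_).trans tsum_zero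
    rw [clsTerm, if_neg]
    intro hdu
    obtain ⟨q, hq⟩ := (ZMod.intCast_zmod_eq_zero_iff_dvd (((d : ℕ) : ℤ) - r) M).mp
      (by simp [hdu, hr])
    have hd1 : (1 : ℤ) ≤ (d : ℕ) := by exact_mod_cast d.pos
    have hr2 : (r : ℤ) ≤ M := by exact_mod_cast h2
    have hq0 : 0 ≤ q := by
      by_contra hlt
      nlinarith [(by omega : q ≤ -1)]
    lift q to ℕ using hq0
    refine hd ⟨q, PNat.eq ?_⟩
    show r + q * M = (d : ℕ)
    have : ((r + q * M : ℕ) : ℤ) = (d : ℕ) := by push_cast; linarith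
    exact_mod_cast this
  · have hdu : (((g n : ℕ+) : ℕ) : ZMod M) = u := by simp [g, hr]
    simp only [Function.comp_apply]
    rw [tsum_clsTerm_fiber 0 u w τ (g n) b hdu hb]
    have hq : ‖exp (2 * π * I * ((((g n : ℕ+) : ℕ) : ℂ) * τ + b) / M)‖ < 1 := by
      rw [mul_div_assoc]
      refine norm_exp_two_pi_I_lt_one ⟨_, ?_⟩
      rw [Complex.div_natCast_im]
      refine div_pos ?_ (by exact_mod_cast NeZero.pos M)
      simp only [Complex.add_im, Complex.mul_im, Complex.natCast_re, Complex.natCast_im, zero_mul,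
        add_zero, Complex.intCast_im]
      exact mul_pos (by exact_mod_cast (g n).pos) τ.im_pos
    rw [mul_div_assoc] at hq
    simp only [pow_zero, one_mul]
    rw [tsum_pnat_eq_tsum_succ (f := fun k : ℕ =>
      exp (2 * π * I * (((((g n : ℕ+) : ℕ) : ℂ) * τ + b) / M)) ^ k)]
    simp only [pow_succ']
    rw [tsum_mul_left, tsum_geometric_of_norm_lt_one hq, ellq, div_eq_mul_inv]
    rfl

/-- The expansion of the weight-one series. -/
theorem hasSum_eisOneV {v : ZMod M × ZMod M} (hv : v ≠ 0) (τ : ℍ) :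
    HasSum (fun n : ℕ => eisOneCoef v n * Periodic.qParam (M : ℝ) (τ : ℂ) ^ n) (eisOneV v τ) := by
  have hM : (M : ℂ) ≠ 0 := NeZero.ne _
  set a : ℕ := v.1.val with ha
  set b : ℤ := (v.2.val : ℤ) with hb
  have haM : a < M := ZMod.val_lt _
  set z : ℂ := (((a : ℤ) : ℂ) * τ + b) / M with hz
  have hS2 : ∑' p, clsTerm 0 (-v.1) (-v.2) τ p = lamb τ (-z) := by
    rw [← (hasSum_ellq_class (-v.1) (-v.2) (-b) (by simp [hb]) (M - a) (by omega) (by omega)
      (by rw [Nat.cast_sub haM.le]; simp [ha]) τ).tsum_eq]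
    refine tsum_congr fun n => congrArg ellq ?_
    rw [hz]
    push_cast [Nat.cast_sub haM.le]
    field_simp
    ring
  have hS1 : ∑' p, clsTerm 0 v.1 v.2 τ p = (if v.1 = 0 then 0 else ellq z) + lamb τ z := by
    split_ifs with h
    · have ha0 : a = 0 := by simp [ha, h]
      rw [zero_add, ← (hasSum_ellq_class v.1 v.2 b (by simp [hb]) M NeZero.one_le le_rfl
        (by simp [h]) τ).tsum_eq]
      refine tsum_congr fun n => congrArg ellq ?_
      rw [hz, ha0]
      push_cast
      field_simp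
      ring
    · have ha1 : 1 ≤ a := Nat.one_le_iff_ne_zero.mpr (by simp [ha, ZMod.val_eq_zero, h])
      have hs := hasSum_ellq_class v.1 v.2 b (by simp [hb]) a ha1 haM.le (by simp [ha]) τ
      rw [← hs.tsum_eq, hs.summable.tsum_eq_zero_add, lamb]
      congr 1
      · rw [hz]; congr 1; push_cast; ring
      · refine tsum_congr fun n => congrArg ellq ?_
        rw [hz]
        push_cast
        field_simp
        ring
  have hval : eisOneV v τ = eisOneCoef v 0 + (∑' p, clsTerm 0 (-v.1) (-v.2) τ p) -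
      ∑' p, clsTerm 0 v.1 v.2 τ p := by
    rw [eisOneV_eq hv (a := (a : ℤ)) (b := b) (by simp [ha]) (by simp [hb]), eisRaw, hS1, hS2,
      eisOneCoef, if_pos rfl, cotF, cotq, ← hz]
    have h0 : ellq z = (if v.1 = 0 then 0 else ellq z) +
        (if v.1 = 0 then zetaC M ^ v.2.val / (1 - zetaC M ^ v.2.val) else 0) := by
      split_ifs with h
      · have ha0 : a = 0 := by simp [ha, h]
        rw [zero_add, hz, ha0, ellq, Nat.cast_zero, Int.cast_zero, zero_mul, zero_add,
          exp_two_pi_mul_int_div b v.2 (by simp [hb])]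
      · simp
    have := Real.pi_ne_zero
    rw [← ha]
    push_cast
    field_simp
    linear_combination (-2 * (M : ℂ)) * h0
  rw [hval]
  refine (((hasSum_ite_eq 0 (eisOneCoef v 0)).add (hasSum_clsCoef 0 (-v.1) (-v.2) τ)).sub
    (hasSum_clsCoef 0 v.1 v.2 τ)).congr_fun fun n => ?_
  by_cases hn : n = 0
  · simp [hn, clsCoef]
  · simp [eisOneCoef, hn, sub_mul]

theorem goodFn_eisOneV (v : ZMod M × ZMod M) : Eis.GoodFn (M : ℝ) (eisOneV v) := by
  by_cases hv : v = 0
  · rw [show eisOneV v = 0 from funext fun τ => if_pos hv]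
    exact Eis.goodFn_zero _
  · exact Eis.goodFn_of_hasSum (by exact_mod_cast NeZero.pos M) (hasSum_eisOneV hv)

end Fermat.Agent.WeightOneGalois
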