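import Fermat.Agent.MF.Scale
import Fermat.Agent.WeightOneGalois.Forms.Weight1

/-!
# The series `EisOne` and `EisRat`

Proves the two weight-one inputs of `Interface`: an Eisenstein series with character which is
congruent to a constant modulo `ℓ`, and one with integral coefficients and non-zero constant term.
-/

noncomputable section

namespace Fermat.Agent.WeightOneGalois

open UpperHalfPlane hiding I
open Complex Function CongruenceSubgroup
open scoped MatrixGroups ModularForm Manifold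

variable {N : ℕ} [NeZero N]

/-- `E^(u,0)(Nτ)`. -/
def eisSc (u : ZMod N) : ℍ → ℂ := eisOneV (u, 0) ∘ MF.scale N

theorem eisSc_slash (u : ZMod N) {γ : SL(2, ℤ)} (hγ : γ ∈ Gamma0 N) :
    eisSc u ∣[(1 : ℤ)] γ = eisSc (u * (γ 0 0 : ZMod N)) := by
  rw [Gamma0_mem, ZMod.intCast_zmod_eq_zero_iff_dvd] at hγ
  obtain ⟨c, hc⟩ := hγ
  have hdet : γ 0 0 * γ 1 1 - γ 0 1 * γ 1 0 = 1 := by
    rw [← Matrix.det_fin_two]; exact γ.2
  let σ : SL(2, ℤ) := ⟨!![γ 0 0, N * γ 0 1; c, γ 1 1], by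
    rw [Matrix.det_fin_two_of]; rw [hc] at hdet; linear_combination hdet⟩
  have hH : MF.IsHermite N γ σ N 1 0 :=
    ⟨by simp, by simp [σ, mul_comm], by simp [σ, hc, mul_comm], by simp [σ], by simp [σ]⟩
  rw [eisSc, MF.slash_scale hH, eisOneV_slash,
    show rowMul ((u, 0) : ZMod N × ZMod N) σ = (u * (γ 0 0 : ZMod N), 0) by
      ext <;> simp [rowMul, σ]]
  simp [eisSc, MF.scale]

theorem isFormFn_eisSc (u : ZMod N) : MF.IsFormFn (Gamma1 N) 1 (eisSc u) where
  slash_eq γ hγ := by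
    rw [Gamma1_mem] at hγ
    rw [eisSc_slash u (Gamma0_mem.mpr hγ.2.2), hγ.1, mul_one]
  mdiff := MF.mdiff_affH N 1 0 (goodFn_eisOneV _).holo
  bdd γ := by
    obtain ⟨σ, a, d, b, ha, hd, hH⟩ := MF.exists_hermite N γ
    rw [eisSc, MF.slash_scale hH, eisOneV_slash]
    exact ((goodFn_eisOneV _).bdd.comp_tendsto (MF.tendsto_affH a d b)).const_smul_left _

theorem qParam_scale_div (τ : ℍ) :
    Periodic.qParam (N : ℝ) (MF.scale N τ : ℂ) = Periodic.qParam 1 (τ : ℂ) := by
  have hN : (N : ℂ) ≠ 0 := NeZero.ne _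
  rw [Periodic.qParam, Periodic.qParam, MF.coe_scale]
  congr 1
  push_cast
  field_simp

theorem hasSum_eisSc {u : ZMod N} (hu : u ≠ 0) (τ : ℍ) :
    HasSum (fun n : ℕ => eisOneCoef (u, (0 : ZMod N)) n * Periodic.qParam 1 (τ : ℂ) ^ n)
      (eisSc u τ) := by
  have h := hasSum_eisOneV (v := ((u, 0) : ZMod N × ZMod N))
    (fun h => hu (congrArg Prod.fst h)) (MF.scale N τ)
  rw [qParam_scale_div] at h
  exact h

/-- Signed number of divisors of `n` in the class of `-u` and of `u`. -/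
def eisCount (u : ZMod N) (n : ℕ) : ℤ :=
  (n.divisors.filter fun d : ℕ => (d : ZMod N) = -u).card -
    (n.divisors.filter fun d : ℕ => (d : ZMod N) = u).card

theorem eisOneCoef_zero {u : ZMod N} (hu : u ≠ 0) :
    eisOneCoef (u, (0 : ZMod N)) 0 = (u.val : ℂ) / N - 1 / 2 := by
  simp [eisOneCoef, hu]

omit [NeZero N] in
theorem eisOneCoef_pos (u : ZMod N) {n : ℕ} (hn : n ≠ 0) :
    eisOneCoef (u, (0 : ZMod N)) n = (eisCount u n : ℂ) := by
  simp [eisOneCoef, hn, eisCount, clsCoef]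

/-- `ℓ ∑ χ(a) E^(a,0)(ℓτ)` satisfies `EisOne`. -/
theorem eisOne : EisOne := by
  intro ℓ _ hℓ _ χ hχ
  have := Fact.mk hℓ
  have hℓ0 : (ℓ : ℂ) ≠ 0 := NeZero.ne _
  have hne : χ ≠ 1 := by
    rintro rfl
    rw [MulChar.one_apply (isUnit_one.neg)] at hχ
    norm_num at hχ
  have hsum : ∑ a : ZMod ℓ, χ a = 0 := MulChar.sum_eq_zero_of_ne_one hne
  let E : ℍ → ℂ := ∑ a : ZMod ℓ, ((ℓ : ℂ) * χ a) • eisSc a
  let X : ZMod ℓ → integralClosure ℤ ℂ := fun a => ⟨χ a, isIntegral_char χ a⟩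
  let e : PowerSeries (integralClosure ℤ ℂ) := PowerSeries.mk fun n =>
    if n = 0 then ∑ a : ZMod ℓ, X a * (a.val : integralClosure ℤ ℂ)
    else (ℓ : integralClosure ℤ ℂ) * ∑ a : ZMod ℓ, X a * (eisCount a n : integralClosure ℤ ℂ)
  have hE : ∀ τ : ℍ, HasSum (fun n : ℕ =>
      (e.map (integralClosure ℤ ℂ).val.toRingHom).coeff n * Periodic.qParam 1 (τ : ℂ) ^ n)
      (E τ) := by
    intro τ
    have h : ∀ a : ZMod ℓ, HasSum (fun n : ℕ => (ℓ : ℂ) * χ a *
        (eisOneCoef (a, (0 : ZMod ℓ)) n * Periodic.qParam 1 (τ : ℂ) ^ n))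
        ((ℓ : ℂ) * χ a * eisSc a τ) := by
      intro a
      by_cases ha : a = 0
      · simp only [ha, MulChar.map_zero, mul_zero, zero_mul]
        exact hasSum_zero
      · exact (hasSum_eisSc ha τ).mul_left _
    simp only [E, Finset.sum_apply, Pi.smul_apply, smul_eq_mul]
    refine (hasSum_sum fun a _ => h a).congr_fun fun n => ?_
    simp only [← mul_assoc, ← Finset.sum_mul]
    congr 1
    rw [PowerSeries.coeff_map, PowerSeries.coeff_mk]
    split_ifs with hn
    · subst hn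
      simp only [map_sum, map_mul, map_natCast, X, AlgHom.toRingHom_eq_coe, RingHom.coe_coe,
        Subalgebra.coe_val]
      have e1 : ∀ a : ZMod ℓ, (ℓ : ℂ) * χ a * eisOneCoef (a, (0 : ZMod ℓ)) 0 =
          χ a * a.val - (ℓ : ℂ) / 2 * χ a := by
        intro a
        by_cases ha : a = 0
        · simp [ha, MulChar.map_zero]
        · rw [eisOneCoef_zero ha]
          field_simp
      rw [Finset.sum_congr rfl fun a _ => e1 a, Finset.sum_sub_distrib, ← Finset.mul_sum, hsum,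
        mul_zero, sub_zero]
    · simp only [map_sum, map_mul, map_natCast, map_intCast, X, AlgHom.toRingHom_eq_coe,
        RingHom.coe_coe, Subalgebra.coe_val, Finset.mul_sum]
      exact Finset.sum_congr rfl fun a _ => by rw [eisOneCoef_pos a hn, mul_assoc]
  refine ⟨E, e, MF.IsFormFn.sum _ fun a _ => (isFormFn_eisSc a).smul _, fun γ hγ => ?_,
    Eis.qExpansion_eq_of_hasSum one_pos _ hE, ?_, fun n hn => ?_⟩
  · have hdet : (γ 0 0 : ZMod ℓ) * (γ 1 1 : ZMod ℓ) = 1 := by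
      have h := γ.2
      rw [Matrix.det_fin_two] at h
      have h2 := congrArg (Int.cast : ℤ → ZMod ℓ) h
      push_cast at h2
      rwa [Gamma0_mem.mp hγ, mul_zero, sub_zero] at h2
    simp only [E, SlashAction.sum_slash, ModularForm.SL_smul_slash, eisSc_slash _ hγ,
      Finset.smul_sum, smul_smul]
    refine Fintype.sum_equiv ⟨fun a => a * (γ 0 0 : ZMod ℓ), fun a => a * (γ 1 1 : ZMod ℓ),
      fun a => (mul_assoc a _ _).trans (by rw [hdet, mul_one]),
      fun a => (mul_assoc a _ _).trans (by rw [mul_comm (γ 1 1 : ZMod ℓ), hdet, mul_one])⟩ _ _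
      fun a => ?_
    simp only [Equiv.coe_fn_mk]
    congr 1
    rw [mul_left_comm, ← map_mul,
      show (γ 1 1 : ZMod ℓ) * (a * (γ 0 0 : ZMod ℓ)) = a by linear_combination a * hdet]
  · rw [PowerSeries.coeff_mk, if_pos rfl]
    push_cast
    refine Finset.sum_nbij' (fun a : ZMod ℓ => a.val) (fun i : ℕ => (i : ZMod ℓ))
      (fun a _ => Finset.mem_range.mpr a.val_lt) (fun i _ => Finset.mem_univ _)
      (fun a _ => ZMod.natCast_zmod_val a)
      (fun i hi => ZMod.val_natCast_of_lt (Finset.mem_range.mp hi)) fun a _ => ?_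
    rw [ZMod.natCast_zmod_val]
  · rw [PowerSeries.coeff_mk, if_neg hn]
    exact dvd_mul_right _ _

/-- `2 N E^(1,0)(Nτ)` satisfies `EisRat`. -/
theorem eisRat : EisRat := by
  intro N _ hN
  have hN0 : (N : ℂ) ≠ 0 := NeZero.ne _
  have : Fact (1 < N) := ⟨by omega⟩
  let e : PowerSeries ℤ := PowerSeries.mk fun n =>
    if n = 0 then 2 - (N : ℤ) else 2 * (N : ℤ) * eisCount (1 : ZMod N) n
  have hE : ∀ τ : ℍ, HasSum (fun n : ℕ =>
      (e.map (Int.castRingHom ℂ)).coeff n * Periodic.qParam 1 (τ : ℂ) ^ n)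
      (((2 * (N : ℂ)) • eisSc (1 : ZMod N)) τ) := by
    intro τ
    refine ((hasSum_eisSc (one_ne_zero : (1 : ZMod N) ≠ 0) τ).mul_left _).congr_fun fun n => ?_
    rw [← mul_assoc]
    congr 1
    rw [PowerSeries.coeff_map, PowerSeries.coeff_mk]
    split_ifs with hn
    · subst hn
      rw [eisOneCoef_zero one_ne_zero, ZMod.val_one, eq_intCast]
      push_cast
      field_simp
    · rw [eisOneCoef_pos _ hn, eq_intCast]
      push_cast
      rfl
  exact ⟨_, e, (isFormFn_eisSc 1).smul _, Eis.qExpansion_eq_of_hasSum one_pos _ hE, by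
    rw [PowerSeries.coeff_mk, if_pos rfl]; omega⟩

end Fermat.Agent.WeightOneGalois
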