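import Fermat.Agent.Eis.Expansion
import Fermat.Agent.WeightOneGalois.Forms.Series

/-!
# Weight four Eisenstein series of level `M`

The lattice sums over a class modulo `M`, their transformation law and expansion `gSer`; proves
`YForms`.
-/

noncomputable section

namespace Fermat.Agent.WeightOneGalois

open UpperHalfPlane hiding I
open Complex Function Matrix EisensteinSeries Filter
open scoped MatrixGroups ModularForm Topology Manifold

variable {M : ℕ}

/-- The reduction of an integral row. -/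
def rowRed (x : Fin 2 → ℤ) : ZMod M × ZMod M := ((x 0 : ZMod M), (x 1 : ZMod M))

theorem rowRed_vecMul (x : Fin 2 → ℤ) (γ : SL(2, ℤ)) :
    rowRed (M := M) (x ᵥ* (γ : Matrix (Fin 2) (Fin 2) ℤ)) = rowMul (rowRed x) γ := by
  ext <;> simp [rowRed, rowMul, vecMul, vec2_dotProduct]

/-- The summand of the lattice sum of the class `v`. -/
def latTerm (v : ZMod M × ZMod M) (τ : ℍ) (x : Fin 2 → ℤ) : ℂ :=
  if rowRed x = v then eisSummand 4 x τ else 0

theorem summable_latTerm (v : ZMod M × ZMod M) (τ : ℍ) : Summable (latTerm v τ) := by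
  refine Summable.of_norm_bounded
      (summable_norm_eisSummand (le_of_lt (by norm_num : (3 : ℤ) < 4)) τ)
    fun x => ?_
  unfold latTerm
  split_ifs <;> simp

/-- `6 M⁴ / (2π)⁴`. -/
def latConst (M : ℕ) : ℂ := 6 * (M : ℂ) ^ 4 / (2 * Real.pi) ^ 4

/-- The weight four Eisenstein series of the class `v`. -/
def eisFour (v : ZMod M × ZMod M) (τ : ℍ) : ℂ := latConst M * ∑' x, latTerm v τ x

/-- `SL(2, ℤ)` permutes the weight-four series through its action on rows. -/
theorem eisFour_slash (v : ZMod M × ZMod M) (γ : SL(2, ℤ)) :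
    eisFour v ∣[(4 : ℤ)] γ = eisFour (rowMul v γ) := by
  ext τ
  let e : (Fin 2 → ℤ) ≃ (Fin 2 → ℤ) :=
    { toFun := fun x => x ᵥ* (γ : Matrix (Fin 2) (Fin 2) ℤ)
      invFun := fun x => x ᵥ* ((γ⁻¹ : SL(2, ℤ)) : Matrix (Fin 2) (Fin 2) ℤ)
      left_inv := fun x => by
        change x ᵥ* (γ : Matrix (Fin 2) (Fin 2) ℤ) ᵥ*
          ((γ⁻¹ : SL(2, ℤ)) : Matrix (Fin 2) (Fin 2) ℤ) = x
        rw [vecMul_vecMul, ← Matrix.SpecialLinearGroup.coe_mul, mul_inv_cancel,
          Matrix.SpecialLinearGroup.coe_one, vecMul_one]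
      right_inv := fun x => by
        change x ᵥ* ((γ⁻¹ : SL(2, ℤ)) : Matrix (Fin 2) (Fin 2) ℤ) ᵥ*
          (γ : Matrix (Fin 2) (Fin 2) ℤ) = x
        rw [vecMul_vecMul, ← Matrix.SpecialLinearGroup.coe_mul, inv_mul_cancel,
          Matrix.SpecialLinearGroup.coe_one, vecMul_one] }
  rw [ModularForm.SL_slash_apply, eisFour, eisFour, ← e.tsum_eq (latTerm (rowMul v γ) τ),
    mul_assoc, ← tsum_mul_right]
  congr 1
  refine tsum_congr fun x => ?_
  change latTerm v (γ • τ) x * _ = latTerm (rowMul v γ) τ (x ᵥ* (γ : Matrix (Fin 2) (Fin 2) ℤ))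
  by_cases h : rowRed x = v
  · rw [latTerm, latTerm, if_pos h, if_pos (by rw [rowRed_vecMul, h]), eisSummand_SL2_apply,
      _root_.mul_comm, ← mul_assoc, ← zpow_add₀ (denom_ne_zero _ _)]
    simp
  · rw [latTerm, latTerm, if_neg h, if_neg (fun h' => h (rowMul_inj (by rwa [← rowRed_vecMul]))),
      zero_mul]

theorem tsum_int_four (z : ℍ) : ∑' n : ℤ, 1 / ((z : ℂ) + n) ^ 4 =
    (2 * Real.pi) ^ 4 / 6 *
      ∑' k : ℕ+, ((k : ℕ) : ℂ) ^ 3 * exp (2 * Real.pi * I * z) ^ (k : ℕ) := by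
  rw [qExpansion_identity (by norm_num : 1 ≤ 3) z, tsum_pnat_eq_tsum_of_eq_zero (f := fun k : ℕ =>
    (k : ℂ) ^ 3 * exp (2 * Real.pi * I * z) ^ k) (by simp)]
  congr 1
  rw [show (-2 * (Real.pi : ℂ) * I) ^ (3 + 1) = (2 * Real.pi) ^ 4 * I ^ 4 by ring, I_pow_four]
  norm_num

theorem hasSum_cube_geometric {r : ℂ} (hr : ‖r‖ < 1) :
    HasSum (fun n : ℕ => (n : ℂ) ^ 3 * r ^ n) (r * (1 + 4 * r + r ^ 2) / (1 - r) ^ 4) := by
  have h3 := hasSum_choose_mul_geometric_of_norm_lt_one 3 hr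
  have h2 := hasSum_choose_mul_geometric_of_norm_lt_one 2 hr
  have h1 := hasSum_choose_mul_geometric_of_norm_lt_one 1 hr
  have h0 := hasSum_geometric_of_norm_lt_one hr
  have hne : (1 : ℂ) - r ≠ 0 := by
    intro h
    rw [← sub_eq_zero.mp h] at hr
    simp at hr
  have h := (((h3.mul_left 6).sub (h2.mul_left 12)).add (h1.mul_left 7)).sub h0
  rw [show (r * (1 + 4 * r + r ^ 2) / (1 - r) ^ 4) = 6 * (1 / (1 - r) ^ (3 + 1)) -
    12 * (1 / (1 - r) ^ (2 + 1)) + 7 * (1 / (1 - r) ^ (1 + 1)) - (1 - r)⁻¹ by field_simp; ring]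
  refine h.congr_fun fun n => ?_
  have e3 : ((n + 3).choose 3 : ℂ) = ((n : ℂ) + 1) * (n + 2) * (n + 3) / 6 := by
    have h := congrArg (Nat.cast : ℕ → ℂ) (Nat.descFactorial_eq_factorial_mul_choose (n + 3) 3)
    simp [Nat.descFactorial, Nat.factorial] at h
    linear_combination (-h) / 6
  have e2 : ((n + 2).choose 2 : ℂ) = ((n : ℂ) + 1) * (n + 2) / 2 := by
    have h := congrArg (Nat.cast : ℕ → ℂ) (Nat.descFactorial_eq_factorial_mul_choose (n + 2) 2)
    simp [Nat.descFactorial, Nat.factorial] at h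
    linear_combination (-h) / 2
  rw [e3, e2, Nat.choose_one_right]
  push_cast
  ring

/-- The value of the lattice row on the real axis. -/
theorem tsum_int_four_real [NeZero M] (w : ℕ) (hw : ¬ M ∣ w) :
    ∑' n : ℤ, 1 / ((w : ℂ) / M + n) ^ 4 = (2 * Real.pi) ^ 4 / 6 *
      (exp (2 * Real.pi * I * ((w : ℂ) / M)) * (1 + 4 * exp (2 * Real.pi * I * ((w : ℂ) / M)) +
        exp (2 * Real.pi * I * ((w : ℂ) / M)) ^ 2) /
          (1 - exp (2 * Real.pi * I * ((w : ℂ) / M))) ^ 4) := by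
  set x : ℂ := (w : ℂ) / M with hx
  have hM : (0 : ℝ) < M := by exact_mod_cast NeZero.pos M
  have hMc : (M : ℂ) ≠ 0 := NeZero.ne _
  have hdist : ∀ n : ℤ, 1 / (M : ℝ) ≤ ‖x + n‖ := by
    intro n
    have h1 : (1 : ℝ) ≤ |(((w : ℤ) + M * n : ℤ) : ℝ)| := by
      rw [← Int.cast_abs]
      have : (w : ℤ) + M * n ≠ 0 := fun h => hw (Int.natCast_dvd_natCast.mp ⟨-n, by linarith⟩)
      exact_mod_cast Int.one_le_abs this
    rw [show x + n = (((w : ℤ) + M * n : ℤ) : ℂ) / M by rw [hx]; push_cast; field_simp,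
      norm_div, Complex.norm_natCast, Complex.norm_intCast]
    gcongr
  set δ : ℝ := 1 / (2 * M) with hδ
  have hclose : ∀ z ∈ Metric.closedBall x δ, ∀ n : ℤ, ‖x + n‖ / 2 ≤ ‖z + n‖ := by
    intro z hz n
    have h1 : ‖x - z‖ ≤ δ := by
      rw [Metric.mem_closedBall, dist_comm, dist_eq_norm] at hz
      exact hz
    have h2 : δ ≤ ‖x + n‖ / 2 := by
      have := hdist n
      rw [hδ, show 1 / (2 * (M : ℝ)) = 1 / (M : ℝ) / 2 by ring]
      linarith
    have h3 : ‖x + n‖ ≤ ‖z + n‖ + ‖x - z‖ :=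
      (norm_add_le (z + n) (x - z)).trans' (le_of_eq (by congr 1; ring))
    linarith
  have hpos : ∀ n : ℤ, 0 < ‖x + n‖ := fun n => lt_of_lt_of_le (by positivity) (hdist n)
  have hsum : Summable fun n : ℤ => 16 * ‖((x + n) ^ (4 : ℤ))⁻¹‖ := by
    have := (linear_right_summable x 1 (by norm_num : (2 : ℤ) ≤ 4)).norm.mul_left 16
    simpa using this
  have hcont : ContinuousOn (fun z : ℂ => ∑' n : ℤ, 1 / (z + n) ^ 4) (Metric.closedBall x δ) := by
    refine continuousOn_tsum (fun n => ?_) hsum fun n z hz => ?_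
    · refine continuousOn_const.div (by fun_prop) fun z hz => pow_ne_zero _ ?_
      intro h0
      have := hclose z hz n
      rw [h0, norm_zero] at this
      linarith [hpos n]
    · have h1 := hclose z hz n
      have h2 := hpos n
      rw [norm_div, norm_one, norm_pow, norm_inv, zpow_ofNat, norm_pow, one_div]
      calc (‖z + n‖ ^ 4)⁻¹ ≤ ((‖x + n‖ / 2) ^ 4)⁻¹ := by gcongr
        _ = 16 * (‖x + n‖ ^ 4)⁻¹ := by field_simp; ring
  set R : ℂ → ℂ := fun z => (2 * Real.pi) ^ 4 / 6 *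
      (exp (2 * Real.pi * I * z) * (1 + 4 * exp (2 * Real.pi * I * z) +
        exp (2 * Real.pi * I * z) ^ 2) / (1 - exp (2 * Real.pi * I * z)) ^ 4) with hR
  have hne : 1 - exp (2 * Real.pi * I * x) ≠ 0 := by
    intro h
    rw [sub_eq_zero, eq_comm, Complex.exp_eq_one_iff] at h
    obtain ⟨n, hn⟩ := h
    have hxn : x = n := mul_left_cancel₀ Complex.two_pi_I_ne_zero (by rw [hn]; ring)
    have := hpos (-n)
    simp [hxn] at this
  have hRc : ContinuousAt R x :=
    continuousAt_const.mul (ContinuousAt.div (by fun_prop) (by fun_prop) (pow_ne_zero _ hne))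
  have hhc : ContinuousAt (fun z : ℂ => ∑' n : ℤ, 1 / (z + n) ^ 4) x :=
    hcont.continuousAt (Metric.closedBall_mem_nhds x (by positivity))
  have hpath : Tendsto (fun ε : ℝ => x + ε * I) (𝓝[>] 0) (𝓝 x) := by
    refine (Continuous.tendsto' (by fun_prop) _ _ (by simp)).mono_left nhdsWithin_le_nhds
  refine tendsto_nhds_unique (hhc.tendsto.comp hpath) ((hRc.tendsto.comp hpath).congr' ?_)
  filter_upwards [self_mem_nhdsWithin] with ε hε
  have him : 0 < (x + ε * I).im := by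
    simpa [hx, Complex.div_natCast_im] using hε
  have h := tsum_int_four ⟨x + ε * I, him⟩
  have hr : ‖exp (2 * Real.pi * I * (x + ε * I))‖ < 1 :=
    norm_exp_two_pi_I_lt_one ⟨x + ε * I, him⟩
  rw [tsum_pnat_eq_tsum_of_eq_zero (f := fun k : ℕ =>
    (k : ℂ) ^ 3 * exp (2 * Real.pi * I * (x + ε * I)) ^ k) (by simp),
    (hasSum_cube_geometric hr).tsum_eq] at h
  simpa [hR] using h.symm

section Expansion

variable [NeZero M]

/-- The row `a` of the lattice sum. -/
def latRow (v : ZMod M × ZMod M) (τ : ℍ) (a : ℤ) : ℂ :=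
  latConst M * ∑' b : ℤ, latTerm v τ ![a, b]

theorem latRow_eq (v : ZMod M × ZMod M) (τ : ℍ) (a : ℤ) (ha : (a : ZMod M) = v.1) (w : ℤ)
    (hw : (w : ZMod M) = v.2) :
    latRow v τ a = 6 / (2 * Real.pi) ^ 4 * ∑' n : ℤ, 1 / (((a : ℂ) * τ + w) / M + n) ^ 4 := by
  have hM : (M : ℂ) ≠ 0 := NeZero.ne _
  have hinj : Injective fun n : ℤ => w + M * n := fun m n h => by
    have hM0 : (M : ℤ) ≠ 0 := by exact_mod_cast NeZero.ne M
    exact mul_left_cancel₀ hM0 (add_left_cancel h)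
  rw [latRow, ← hinj.tsum_eq (f := fun b : ℤ => latTerm v τ ![a, b]) ?_, ← tsum_mul_left,
    ← tsum_mul_left]
  · refine tsum_congr fun n => ?_
    rw [latTerm, if_pos (by simp [rowRed, ha, hw]), eisSummand, latConst]
    simp only [Matrix.cons_val_zero, Matrix.cons_val_one, Matrix.cons_val_fin_one, _root_.zpow_neg,
      zpow_ofNat]
    push_cast
    rw [show ((a : ℂ) * τ + w) / M + n = ((a : ℂ) * τ + (w + M * n)) / M by field_simp; ring,
      div_pow]
    field_simp
  · intro b hb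
    simp only [mem_support, latTerm, ne_eq, ite_eq_right_iff, not_forall] at hb
    obtain ⟨hb, -⟩ := hb
    have h2 : ((b - w : ℤ) : ZMod M) = 0 := by
      have := congrArg Prod.snd hb
      simp only [rowRed, Matrix.cons_val_one, Matrix.cons_val_fin_one] at this
      simp [this, hw]
    obtain ⟨n, hn⟩ := (ZMod.intCast_zmod_eq_zero_iff_dvd _ _).mp h2
    exact ⟨n, by simp only; linarith⟩

omit [NeZero M] in
theorem latRow_of_ne (v : ZMod M × ZMod M) (τ : ℍ) (a : ℤ) (ha : (a : ZMod M) ≠ v.1) :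
    latRow v τ a = 0 := by
  rw [latRow, (tsum_congr fun b => ?_).trans tsum_zero, mul_zero]
  simp [latTerm, rowRed, Prod.ext_iff, ha]

omit [NeZero M] in
theorem latRow_neg (v : ZMod M × ZMod M) (τ : ℍ) (a : ℤ) :
    latRow v τ (-a) = latRow (-v) τ a := by
  rw [latRow, latRow, ← (Equiv.neg ℤ).tsum_eq fun b => latTerm v τ ![-a, b]]
  congr 1
  refine tsum_congr fun b => ?_
  have h : rowRed (M := M) ![-a, -b] = v ↔ rowRed (M := M) ![a, b] = -v := by
    simp [rowRed, Prod.ext_iff, neg_eq_iff_eq_neg]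
  simp only [latTerm, Equiv.neg_apply, h, eisSummand, Matrix.cons_val_zero, Matrix.cons_val_one,
    Matrix.cons_val_fin_one, _root_.zpow_neg, zpow_ofNat, Int.cast_neg]
  rw [show -(a : ℂ) * τ + -(b : ℂ) = -((a : ℂ) * τ + b) by ring, Even.neg_pow (by norm_num)]

theorem latRow_pnat (v : ZMod M × ZMod M) (τ : ℍ) (d : ℕ+) :
    latRow v τ (d : ℕ) = ∑' k : ℕ+, clsTerm 3 v.1 v.2 τ (d, k) := by
  by_cases hd : ((d : ℕ) : ZMod M) = v.1
  · have hd' : (((d : ℕ) : ℤ) : ZMod M) = v.1 := by simpa using hd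
    have hw : ((v.2.val : ℤ) : ZMod M) = v.2 := by simp
    have him : 0 < ((((d : ℕ) : ℂ) * τ + ((v.2.val : ℤ) : ℂ)) / M).im := by
      rw [Complex.div_natCast_im]
      have := τ.im_pos
      have h1 : (0 : ℝ) < M := by exact_mod_cast NeZero.pos M
      have h2 : (0 : ℝ) < (d : ℕ) := by exact_mod_cast d.pos
      refine div_pos ?_ h1
      simp only [Complex.add_im, Complex.mul_im, Complex.natCast_re, Complex.natCast_im, zero_mul,
        add_zero, Complex.intCast_im]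
      exact mul_pos h2 this
    rw [latRow_eq v τ _ hd' _ hw, tsum_clsTerm_fiber 3 v.1 v.2 τ d _ hd hw]
    have h := tsum_int_four ⟨_, him⟩
    simp only at h
    push_cast at h ⊢
    rw [h]
    field_simp
  · rw [latRow_of_ne _ _ _ (by simpa using hd), (tsum_congr fun k => ?_).trans tsum_zero]
    simp [clsTerm, hd]

theorem latRow_zero (v : ZMod M × ZMod M) (hv : v ≠ 0) (τ : ℍ) :
    latRow v τ 0 = PowerSeries.coeff 0 (gSer ℂ (zetaC M) v) := by
  rw [gSer, PowerSeries.coeff_mk, if_pos rfl]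
  split_ifs with h
  · have hw : ¬ M ∣ v.2.val := fun hd => hv (Prod.ext h (by
      rw [Prod.snd_zero, ← ZMod.natCast_zmod_val v.2, (ZMod.natCast_eq_zero_iff _ _).mpr hd] ))
    rw [latRow_eq v τ 0 (by simpa using h.symm) (v.2.val : ℤ) (by simp), Ring.inverse_eq_inv]
    simp only [Int.cast_zero, zero_mul, zero_add, Int.cast_natCast]
    rw [tsum_int_four_real _ hw, show ((v.2.val : ℕ) : ℂ) = ((v.2.val : ℤ) : ℂ) by simp,
      exp_two_pi_mul_int_div _ v.2 (by simp)]
    field_simp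
  · exact latRow_of_ne _ _ _ (by simpa using Ne.symm h)

/-- The expansion of the weight-four series is `gSer`. -/
theorem hasSum_eisFour (v : ZMod M × ZMod M) (hv : v ≠ 0) (τ : ℍ) :
    HasSum (fun n : ℕ => PowerSeries.coeff n (gSer ℂ (zetaC M) v) *
      Periodic.qParam (M : ℝ) (τ : ℂ) ^ n) (eisFour v τ) := by
  have hs : HasSum (latRow v τ) (eisFour v τ) := by
    have h := ((finTwoArrowEquiv ℤ).symm.hasSum_iff).mpr (summable_latTerm v τ).hasSum
    exact (h.prod_fiberwise fun a => (h.summable.prod_factor a).hasSum).mul_left (latConst M)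
  have hval : eisFour v τ = latRow v τ 0 + (∑' p, clsTerm 3 v.1 v.2 τ p) +
      ∑' p, clsTerm 3 (-v.1) (-v.2) τ p := by
    rw [← hs.tsum_eq, tsum_int_eq_zero_add_tsum_pnat hs.summable]
    congr 1
    · congr 1
      exact ((hasSum_clsInner 3 v.1 v.2 τ).congr_fun fun d => latRow_pnat v τ d).tsum_eq
    · exact ((hasSum_clsInner 3 (-v.1) (-v.2) τ).congr_fun fun d => by
        rw [latRow_neg, latRow_pnat]; rfl).tsum_eq
  rw [hval, latRow_zero v hv τ]
  refine (((hasSum_ite_eq 0 (PowerSeries.coeff 0 (gSer ℂ (zetaC M) v))).add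
    (hasSum_clsCoef 3 v.1 v.2 τ)).add (hasSum_clsCoef 3 (-v.1) (-v.2) τ)).congr_fun fun n => ?_
  by_cases hn : n = 0
  · simp [hn, clsCoef]
  · rw [if_neg hn, zero_add, ← add_mul, gSer, PowerSeries.coeff_mk, if_neg hn]
    rfl

end Expansion

/-- The weight four Eisenstein series of level `M` satisfy `YForms`. -/
theorem yForms : YForms := by
  intro M _ hM
  have : Fact (1 < M) := ⟨by omega⟩
  refine ⟨eisFour, fun v γ _ => eisFour_slash v γ, fun v hv => ?_, fun v hv τ =>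
    hasSum_eisFour v hv.ne_zero τ⟩
  have h := Eis.goodFn_of_hasSum (h := (M : ℝ)) (by exact_mod_cast NeZero.pos M)
    (fun τ => hasSum_eisFour v hv.ne_zero τ)
  exact ⟨h.holo, h.bdd⟩

end Fermat.Agent.WeightOneGalois
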